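import Mathlib
import Fermat.Agent.H78.CFT.LocalRows

/-!
# P-CFT / LOCAL, row LOC-H90 (helper57)

* `h90Lvl : Fermat.Agent.H78.CFT.H90LvlStatement` : Hilbert 90 for level 1-cocycles of
  `Gal(ℚ̄/E)` with values in `ℚ̄ˣ`, `E` an arbitrary intermediate field (Poincaré series over the
  finite coset space `G_E / (G_E ∩ Fix F₀)`; Dedekind's independence of characters on `F₀`).
* `muDescent : Fermat.Agent.H78.CFT.MuDescentStatement` : descent from `ℚ̄ˣ` to `μ_p`.
-/

set_option autoImplicit false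
set_option linter.unusedSectionVars false
set_option linter.style.haveILetI false

namespace Fermat.Agent.H57.CFT

open Fermat.Agent.H13.Cft Fermat.Agent.H78.CFT IntermediateField

noncomputable section

/-- `ℚ̄ / ℚ` is Galois (for the instance used in `IntermediateField ℚ Qb`). -/
theorem isGalois_qb : IsGalois ℚ Qb := by
  have h : (DivisionRing.toRatAlgebra : Algebra ℚ (AlgebraicClosure ℚ)) =
      AlgebraicClosure.instAlgebra ℚ := Subsingleton.elim _ _
  show @IsGalois ℚ _ (AlgebraicClosure ℚ) _ DivisionRing.toRatAlgebra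
  rw [h]
  infer_instance

/-- The fixing subgroup of a finite extension of `ℚ` has finite index in `G_ℚ`. -/
theorem finiteIndex_fixingSubgroup_qb (F : IntermediateField ℚ Qb)
    [FiniteDimensional ℚ F] : F.fixingSubgroup.FiniteIndex := by
  haveI := isGalois_qb
  refine ⟨?_⟩
  rw [← IntermediateField.finrank_eq_fixingSubgroup_index]
  exact Module.finrank_pos.ne'

/-- For `F` finite over `ℚ` there is a level of `G_E` inside `G_E ∩ Fix F`. -/
theorem exists_lvlE_le (E F : IntermediateField ℚ Qb) [FiniteDimensional ℚ F] :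
    ∃ N ∈ (lvlE E).sets, N ≤ F.fixingSubgroup.comap E.fixingSubgroup.subtype := by
  haveI := isGalois_qb
  haveI := finiteIndex_fixingSubgroup_qb F
  haveI hnc : F.fixingSubgroup.normalCore.Normal := Subgroup.normalCore_normal _
  haveI hfi : F.fixingSubgroup.normalCore.FiniteIndex := Subgroup.finiteIndex_normalCore _
  refine ⟨F.fixingSubgroup.normalCore.comap E.fixingSubgroup.subtype, ⟨inferInstance, ⟨?_⟩, ?_⟩,
    Subgroup.comap_mono (Subgroup.normalCore_le _)⟩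
  · rw [Subgroup.index_comap]
    intro h
    exact hfi.index_ne_zero (Subgroup.index_eq_zero_of_relIndex_eq_zero h)
  · refine ⟨normalClosure ℚ F (AlgebraicClosure ℚ), normalClosure.is_finiteDimensional ℚ F _,
      Subgroup.comap_mono ?_⟩
    haveI : Normal ℚ (AlgebraicClosure ℚ) := isGalois_qb.to_normal
    haveI : Normal ℚ (normalClosure ℚ F (AlgebraicClosure ℚ)) := normalClosure.normal ℚ F _
    haveI : IsGalois ℚ (normalClosure ℚ F (AlgebraicClosure ℚ)) := ⟨⟩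
    haveI : (normalClosure ℚ F (AlgebraicClosure ℚ)).fixingSubgroup.Normal :=
      (InfiniteGalois.normal_iff_isGalois _).mpr inferInstance
    rw [Subgroup.normal_le_normalCore]
    exact IntermediateField.fixingSubgroup_antitone (IntermediateField.le_normalClosure F)

variable (E : IntermediateField ℚ Qb)

/-- Restriction of `g ∈ G_E` to `F₀`, as a character `F₀ →* ℚ̄`. -/
def resChar (F₀ : IntermediateField ℚ Qb) (g : E.fixingSubgroup) : F₀ →* Qb where
  toFun θ := (g : Qb ≃ₐ[ℚ] Qb) (θ : Qb)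
  map_one' := by simp
  map_mul' a b := by simp

@[simp] theorem resChar_apply (F₀ : IntermediateField ℚ Qb) (g : E.fixingSubgroup) (θ : F₀) :
    resChar E F₀ g θ = (g : Qb ≃ₐ[ℚ] Qb) (θ : Qb) := rfl

theorem resChar_eq_iff (F₀ : IntermediateField ℚ Qb) (g h : E.fixingSubgroup) :
    resChar E F₀ g = resChar E F₀ h ↔
      g⁻¹ * h ∈ F₀.fixingSubgroup.comap E.fixingSubgroup.subtype := by
  rw [Subgroup.mem_comap, IntermediateField.mem_fixingSubgroup_iff]
  constructor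
  · intro H θ hθ
    have h1 : (g : Qb ≃ₐ[ℚ] Qb) θ = (h : Qb ≃ₐ[ℚ] Qb) θ := DFunLike.congr_fun H ⟨θ, hθ⟩
    show ((g : Qb ≃ₐ[ℚ] Qb)⁻¹ * (h : Qb ≃ₐ[ℚ] Qb)) θ = θ
    rw [AlgEquiv.mul_apply, ← h1]
    show ((g : Qb ≃ₐ[ℚ] Qb)⁻¹ * (g : Qb ≃ₐ[ℚ] Qb)) θ = θ
    rw [inv_mul_cancel]
    rfl
  · intro H
    ext θ
    have h1 : ((g : Qb ≃ₐ[ℚ] Qb)⁻¹ * (h : Qb ≃ₐ[ℚ] Qb)) (θ : Qb) = θ := H θ θ.2
    show (g : Qb ≃ₐ[ℚ] Qb) (θ : Qb) = (h : Qb ≃ₐ[ℚ] Qb) (θ : Qb)
    conv_lhs => rw [← h1]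
    show ((g : Qb ≃ₐ[ℚ] Qb) * ((g : Qb ≃ₐ[ℚ] Qb)⁻¹ * (h : Qb ≃ₐ[ℚ] Qb))) (θ : Qb) = _
    rw [mul_inv_cancel_left]

theorem isMulCocycle₁E_one {x : E.fixingSubgroup → Qbˣ} (hx : IsMulCocycle₁E E x) : x 1 = 1 := by
  have h := hx 1 1
  rw [mul_one] at h
  have h2 : actU ((1 : E.fixingSubgroup) : Qb ≃ₐ[ℚ] Qb) (x 1) = x 1 := by
    ext
    rfl
  rw [h2] at h
  exact (mul_eq_left.mp h.symm)

/-- **[LOC-H90]** Hilbert 90 for level cocycles of `Gal(ℚ̄/E)` with values in `ℚ̄ˣ`. -/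
theorem h90Lvl : H90LvlStatement := by
  classical
  intro E x hxl hcoc
  obtain ⟨N, ⟨hNn, hNf, F₀, hF₀, hF₀N⟩, hxN⟩ := hxl
  haveI := hF₀
  haveI := finiteIndex_fixingSubgroup_qb F₀
  set N' : Subgroup E.fixingSubgroup := F₀.fixingSubgroup.subgroupOf E.fixingSubgroup with hN'
  haveI hfi : N'.FiniteIndex := inferInstance
  haveI : Fintype (E.fixingSubgroup ⧸ N') := Subgroup.fintypeQuotientOfFiniteIndex
  have hxN' : ∀ g, ∀ n ∈ N', x (g * n) = x g := fun g n hn => hxN g n (hF₀N hn)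
  -- the lifts to the coset space
  have hrel : ∀ a b : E.fixingSubgroup, (QuotientGroup.leftRel N') a b → a⁻¹ * b ∈ N' :=
    fun a b h => QuotientGroup.leftRel_apply.mp h
  let X : E.fixingSubgroup ⧸ N' → Qb := Quotient.lift (fun g => ((x g : Qbˣ) : Qb))
    (fun a b h => by
      have h1 := hxN' a (a⁻¹ * b) (hrel a b h)
      rw [mul_inv_cancel_left] at h1
      show ((x a : Qbˣ) : Qb) = ((x b : Qbˣ) : Qb)
      rw [h1])
  let R : E.fixingSubgroup ⧸ N' → (F₀ →* Qb) := Quotient.lift (fun g => resChar E F₀ g)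
    (fun a b h => (resChar_eq_iff E F₀ a b).mpr (hrel a b h))
  have hXmk : ∀ g : E.fixingSubgroup, X (QuotientGroup.mk g) = ((x g : Qbˣ) : Qb) := fun g => rfl
  have hRmk : ∀ g : E.fixingSubgroup, R (QuotientGroup.mk g) = resChar E F₀ g := fun g => rfl
  have hRinj : Function.Injective R := by
    intro a b
    induction a using QuotientGroup.induction_on with
    | H g =>
      induction b using QuotientGroup.induction_on with
      | H h =>
        intro hgh
        rw [hRmk, hRmk, resChar_eq_iff] at hgh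
        exact QuotientGroup.eq.mpr hgh
  have hli : LinearIndependent Qb (fun c : E.fixingSubgroup ⧸ N' => ((R c : F₀ →* Qb) : F₀ → Qb)) :=
    (linearIndependent_monoidHom F₀ Qb).comp R hRinj
  -- a point where the Poincaré series does not vanish
  obtain ⟨θ, hθ⟩ : ∃ θ : F₀, ∑ c : E.fixingSubgroup ⧸ N', X c * R c θ ≠ 0 := by
    by_contra hcon
    push Not at hcon
    have h0 : ∑ c : E.fixingSubgroup ⧸ N', X c • ((R c : F₀ →* Qb) : F₀ → Qb) = 0 := by
      funext θ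
      rw [Finset.sum_apply]
      simpa using hcon θ
    have h1 := Fintype.linearIndependent_iff.mp hli X h0 (QuotientGroup.mk 1)
    rw [hXmk] at h1
    exact (x 1).ne_zero h1
  set b : Qb := ∑ c : E.fixingSubgroup ⧸ N', X c * R c θ with hb
  -- the transformation rule
  have hgb : ∀ g : E.fixingSubgroup, ((x g : Qbˣ) : Qb) * (g : Qb ≃ₐ[ℚ] Qb) b = b := by
    intro g
    rw [hb, map_sum, Finset.mul_sum]
    rw [← Equiv.sum_comp (MulAction.toPerm g : Equiv.Perm (E.fixingSubgroup ⧸ N'))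
      (fun c => X c * R c θ)]
    refine Finset.sum_congr rfl fun c _ => ?_
    induction c using QuotientGroup.induction_on with
    | H h =>
      rw [MulAction.toPerm_apply, MulAction.Quotient.smul_mk, hXmk, hXmk, hRmk, hRmk,
        resChar_apply, resChar_apply, smul_eq_mul, hcoc g h, map_mul]
      rw [Units.val_mul, coe_actU]
      show _ = _ * ((g : Qb ≃ₐ[ℚ] Qb) * (h : Qb ≃ₐ[ℚ] Qb)) (θ : Qb)
      rw [AlgEquiv.mul_apply]
      ring
  have hb0 : b ≠ 0 := hθ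
  refine ⟨(Units.mk0 b hb0)⁻¹, fun g => ?_⟩
  ext
  rw [Units.val_div_eq_div_val, coe_actU, Units.val_inv_eq_inv_val, Units.val_mk0, map_inv₀]
  have hgb0 : (g : Qb ≃ₐ[ℚ] Qb) b ≠ 0 := by
    rw [Ne, map_eq_zero]
    exact hb0
  rw [inv_div_inv, eq_div_iff hgb0]
  exact hgb g

theorem actU_mul (σ τ : Qb ≃ₐ[ℚ] Qb) (u : Qbˣ) : actU (σ * τ) u = actU σ (actU τ u) := by
  ext
  rfl

/-- **[LOC-MU]** descent from `ℚ̄ˣ` to `μ_p`. -/
theorem muDescent : MuDescentStatement := by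
  classical
  intro p _ E ζ hζ hζE c hc
  obtain ⟨x, ⟨N, hN, hxN⟩, hx⟩ := hc
  have hp : p.Prime := Fact.out
  haveI : NeZero p := ⟨hp.ne_zero⟩
  haveI := isGalois_qb
  -- `ζ` as a unit is a primitive root
  have hζu : IsPrimitiveRoot ζ p := IsPrimitiveRoot.coe_units_iff.mp hζ
  -- `g ∈ G_E` fixes `ζ`
  have hgζ : ∀ g : E.fixingSubgroup, actU (g : Qb ≃ₐ[ℚ] Qb) ζ = ζ := by
    intro g
    ext
    rw [coe_actU]
    exact (IntermediateField.mem_fixingSubgroup_iff E _).mp g.2 _ hζE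
  -- the relation satisfied by `x`
  have hrel : ∀ g h : E.fixingSubgroup,
      actU (g : Qb ≃ₐ[ℚ] Qb) (x h) * x g = ζ ^ (c (g, h)).val * x (g * h) := by
    intro g h
    have h1 : actU (g : Qb ≃ₐ[ℚ] Qb) (x h) * x g / x (g * h) = ζ ^ (c (g, h)).val := hx (g, h)
    exact div_eq_iff_eq_mul.mp h1
  -- `x ^ p` is a level cocycle
  have hcoc : IsMulCocycle₁E E (fun g => x g ^ p) := by
    intro g h
    show x (g * h) ^ p = actU (g : Qb ≃ₐ[ℚ] Qb) (x h ^ p) * x g ^ p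
    rw [map_pow, ← mul_pow, hrel g h, mul_pow, ← pow_mul, mul_comm _ p, pow_mul,
      hζu.pow_eq_one, one_pow, one_mul]
  obtain ⟨z, hz⟩ := h90Lvl E (fun g => x g ^ p)
    ⟨N, hN, fun g n hn => by show x (g * n) ^ p = x g ^ p; rw [hxN g n hn]⟩ hcoc
  have hz' : ∀ g : E.fixingSubgroup, x g ^ p = actU (g : Qb ≃ₐ[ℚ] Qb) z / z := hz
  -- a `p`-th root of `z`
  obtain ⟨y0, hy0⟩ := IsAlgClosed.exists_pow_nat_eq (z : Qb) hp.pos
  have hy0ne : y0 ≠ 0 := by
    rintro rfl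
    rw [zero_pow hp.ne_zero] at hy0
    exact z.ne_zero hy0.symm
  set y : Qbˣ := Units.mk0 y0 hy0ne with hy
  have hyz : y ^ p = z := by
    ext
    rw [Units.val_pow_eq_pow_val, Units.val_mk0, hy0]
  -- `x / (g y / y)` is `μ_p`-valued
  have hx' : ∀ g : E.fixingSubgroup, (x g / (actU (g : Qb ≃ₐ[ℚ] Qb) y / y)) ^ p = 1 := by
    intro g
    rw [div_pow, div_pow, ← map_pow, hyz, hz' g, div_self']
  have hex : ∀ g : E.fixingSubgroup,
      ∃ i < p, ζ ^ i = x g / (actU (g : Qb ≃ₐ[ℚ] Qb) y / y) :=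
    fun g => by
      have h1 : ((x g / (actU (g : Qb ≃ₐ[ℚ] Qb) y / y) : Qbˣ) : Qb) ^ p = 1 := by
        rw [← Units.val_pow_eq_pow_val, hx' g, Units.val_one]
      obtain ⟨j, hj, hj'⟩ := hζ.eq_pow_of_pow_eq_one h1
      refine ⟨j, hj, ?_⟩
      ext
      rw [Units.val_pow_eq_pow_val, hj']
  choose i hi hζi using hex
  have hxi : ∀ g : E.fixingSubgroup, x g = ζ ^ i g * (actU (g : Qb ≃ₐ[ℚ] Qb) y / y) := by
    intro g
    rw [hζi g, div_mul_cancel]
  -- a level fixing `y`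
  have hint : IsIntegral ℚ y0 := isGalois_qb.to_normal.isIntegral y0
  haveI : FiniteDimensional ℚ (IntermediateField.adjoin ℚ {y0}) :=
    IntermediateField.adjoin.finiteDimensional hint
  obtain ⟨N₂, hN₂, hN₂le⟩ := exists_lvlE_le E (IntermediateField.adjoin ℚ {y0})
  obtain ⟨N₃, hN₃, hle⟩ := (lvlE E).directed N hN N₂ hN₂
  have hny : ∀ n ∈ N₃, actU ((n : E.fixingSubgroup) : Qb ≃ₐ[ℚ] Qb) y = y := by
    intro n hn
    have h1 : (n : Qb ≃ₐ[ℚ] Qb) ∈ (IntermediateField.adjoin ℚ {y0}).fixingSubgroup :=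
      hN₂le ((hle hn).2)
    ext
    rw [coe_actU, hy, Units.val_mk0]
    exact (IntermediateField.mem_fixingSubgroup_iff _ _).mp h1 y0
      (IntermediateField.mem_adjoin_simple_self ℚ y0)
  have hiN : ∀ g : E.fixingSubgroup, ∀ n ∈ N₃, i (g * n) = i g := by
    intro g n hn
    refine hζu.pow_inj (hi _) (hi _) ?_
    rw [hζi, hζi, hxN g n (hle hn).1, Subgroup.coe_mul, actU_mul, hny n hn]
  refine ⟨fun g => (i g : ZMod p), ⟨N₃, hN₃, fun g n hn => ?_⟩, fun g h => ?_⟩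
  · show ((i (g * n) : ℕ) : ZMod p) = (i g : ZMod p)
    rw [hiN g n hn]
  · have h1 := hrel g h
    rw [hxi h, hxi g, hxi (g * h), map_mul, map_div, map_pow, hgζ g, ← actU_mul,
      ← Subgroup.coe_mul, mul_mul_mul_comm, div_mul_div_cancel, ← mul_assoc] at h1
    have h2 := mul_right_cancel h1
    rw [← pow_add, ← pow_add, pow_eq_pow_iff_modEq, ← hζu.eq_orderOf] at h2
    have h3 := (ZMod.natCast_eq_natCast_iff _ _ _).mpr h2
    push_cast at h3
    rw [ZMod.natCast_zmod_val] at h3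
    show ((i h : ℕ) : ZMod p) - (i (g * h) : ZMod p) + (i g : ZMod p) = c (g, h)
    linear_combination h3

end

end Fermat.Agent.H57.CFT
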