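/-
P-CFT / LOCAL, row INV-STD (helper57): the unramified cocycle of `a ∈ Eˣ` of degree `m` is a
level coboundary iff `m ∣ ord_E(a)`.

`theorem unramCocycleStd : Fermat.Agent.H78.CFT.UnramCocycleStatement`.

Assembly of
* `Fermat.Agent.H75.Inf2.inf2Lvl` (with `Fermat.Agent.H57.CFT.h90Lvl`) and
  `Fermat.Agent.H75.Inf2.inflCoboundary`: level coboundary iff finite level coboundary;
* helper61's `isMulCoboundary₂_stdCocycle_unitsIncl_iff` and `mem_normSubgp_iff`;
* the norm index theorem `Fermat.Agent.H78.CFT.normSubgroup_indexU` for helper49's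
  `localNormDatum_unramExt`.
-/
import Fermat.Agent.H78.CFT.LocalInvRows
import Fermat.Agent.H78.CFT.LocalNormIndexU
import Fermat.Agent.H75.Inf2Lvl
import Fermat.Agent.H75.Inf2InflCob
import Fermat.Agent.H61.CFT.UnramH78
import Fermat.Agent.H57.CFT.H90Lvl

set_option autoImplicit false
set_option linter.style.haveILetI false
set_option synthInstance.maxHeartbeats 400000

noncomputable section

namespace Fermat.Agent.H57.CFT

open Fermat.Agent.H13.Cft groupCohomology
open Fermat.Agent.H78.CFT Fermat.Agent.H81.Local Fermat.Agent.H49.Unram Fermat.Agent.H61.CFT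

/-- The degree of an unramified cyclic extension is positive. -/
theorem isFrobE_pos {q : ℕ} [Fact q.Prime] {E : IntermediateField ℚ Qb} {m : ℕ}
    {φ : unramExt q E m ≃ₐ[E] unramExt q E m} (hφ : IsFrobE q E m φ) : 0 < m := by
  haveI : FiniteDimensional E (unramExt q E m) := hφ.finiteDimensional
  have h := hφ.finrank_eq
  rw [← h]
  exact Module.finrank_pos

/-- helper49's unramifiedness in helper61's form. -/
theorem isUnramVal_of_isFrobE {q : ℕ} [Fact q.Prime] {E : IntermediateField ℚ Qb} {m : ℕ}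
    {φ : unramExt q E m ≃ₐ[E] unramExt q E m} (hφ : IsFrobE q E m φ) :
    IsUnramVal E (qValOn q (unramExt q E m)) := by
  intro x hx
  obtain ⟨y, hy⟩ := hφ.unram x hx
  refine ⟨y, ?_, hy⟩
  rintro rfl
  have h0 : qValOn q (unramExt q E m) x = 0 := by
    rw [qValOn_apply, hy, map_zero, map_zero]
  exact hx ((map_eq_zero _).1 h0)

/-- helper81's uniformizers are helper61's uniformizers. -/
theorem isUnifVal_of_isUnif {q : ℕ} [Fact q.Prime] {E : IntermediateField ℚ Qb}
    (F : IntermediateField E Qb) {π : Eˣ} (hπ : IsUnif q E ((π : E) : Qb)) :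
    IsUnifVal (qValOn q F) (π : E) := by
  refine ⟨π.ne_zero, hπ.2.2.1, fun x hx => ?_⟩
  exact hπ.2.2.2 (x : Qb) x.2 (fun h => hx (Subtype.ext h))

/-- The finite level form of INV-STD: the standard cocycle of `a ∈ Eˣ` of the unramified
extension of degree `m` is a coboundary iff `m ∣ ord_E(a)`. -/
theorem isMulCoboundary₂_stdCocycle_unitOfE_iff {q : ℕ} [Fact q.Prime]
    {E : IntermediateField ℚ Qb} (hE : IsLocalFinite q E) {m : ℕ}
    {φ : unramExt q E m ≃ₐ[E] unramExt q E m} (hφ : IsFrobE q E m φ) {π a : Eˣ} {k : ℤ}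
    (hπ : IsUnif q E ((π : E) : Qb))
    (hak : qVal q ((a : E) : Qb) = qVal q ((π : E) : Qb) ^ k) :
    IsMulCoboundary₂ (stdCocycle φ (unitOfE q E m a)) ↔ (m : ℤ) ∣ k := by
  haveI : FiniteDimensional E (unramExt q E m) := hφ.finiteDimensional
  haveI : IsGalois E (unramExt q E m) := hφ.isGalois
  have hm : 0 < m := isFrobE_pos hφ
  have hd := localNormDatum_unramExt hE hm
  have hur := isUnramVal_of_isFrobE hφ
  have hπ' := isUnifVal_of_isUnif (unramExt q E m) hπ
  have hg : IsGen φ := isGen_of_forall_mem_zpowers hφ.gen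
  haveI : IsCyclic (unramExt q E m ≃ₐ[E] unramExt q E m) := ⟨⟨φ, hφ.gen⟩⟩
  have hidx : (normSubgp E (unramExt q E m)).index = Module.finrank E (unramExt q E m) :=
    normSubgroup_indexU hd
  have hfr : Module.finrank E (unramExt q E m) = m := hφ.finrank_eq
  have hu : unitOfE q E m a = unitsIncl E (unramExt q E m) a := rfl
  have hord : ordVal hπ' a = k := (ordVal_eq_iff hπ' a k).2 hak
  rw [hu, isMulCoboundary₂_stdCocycle_unitsIncl_iff hg,
    mem_normSubgp_iff hd.galois_inv hur hπ' hidx, hfr, hord]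

/-- **[INV-STD]** the unramified cocycle of `a ∈ Eˣ` of degree `m` is a level coboundary iff
`m ∣ ord_E(a)`. -/
theorem unramCocycleStd : UnramCocycleStatement := by
  intro q _ E hE m φ hφ π a k hπ hak
  haveI : FiniteDimensional E (unramExt q E m) := hφ.finiteDimensional
  haveI : IsGalois E (unramExt q E m) := hφ.isGalois
  have hg : IsGen φ := isGen_of_forall_mem_zpowers hφ.gen
  have hcoc : IsMulCocycle₂ (stdCocycle φ (unitOfE q E m a)) :=
    isMulCocycle₂_stdCocycle_unitsIncl hg a
  rw [← isMulCoboundary₂_stdCocycle_unitOfE_iff hE hφ hπ hak]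
  constructor
  · intro h
    exact Fermat.Agent.H75.Inf2.inf2Lvl h90Lvl E (unramExt q E m) _ hcoc h
  · intro h
    exact Fermat.Agent.H75.Inf2.inflCoboundary E (unramExt q E m) _ h

end Fermat.Agent.H57.CFT

end
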